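/-
PROJECT W (S52), input (c) of the tree: THE THIRD SUBSTITUTION IDENTITY, on helper21's forms of record
(`Fermat.Agent.S52.KleinForms`: `kf kH kT kfu kfv`), WITHOUT A BIG `ring` (helper11).

  `Tf (kH u v) (kT u v) t = kT (u - t * kfv u v) (v + t * kfu u v)`   in every commutative ring.

Proof.  The two syzygies (`kT² + kH³ = 1728 kf⁵` of Klein, `Tf² + Hf³ = (k² + h³) df⁵` of the family)
together with helper21's `KleinSubstH.Hf_subst` and `KleinSubstF.df_subst` give
`kT(P + t X)² = Tf²` in every commutative ring (one `linear_combination`).  In the universal domain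
`ℤ[u, v, t] = MvPolynomial (Fin 3) ℤ` this gives `kT(P + t X) = ± Tf`, and the sign is `+` because at
`(u, v, t) = (1, 0, 0)` both sides are `1`.  Every commutative ring receives `ℤ[u, v, t]`, and all the
forms commute with ring homomorphisms.
-/
import Mathlib
import Fermat.Agent.S52.KleinFamily
import Fermat.Agent.S52.KleinForms
import Fermat.Agent.S52.KleinSubstH
import Fermat.Agent.S52.KleinSubstF

set_option autoImplicit false
set_option linter.unusedVariables false
set_option linter.unusedSimpArgs false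
set_option linter.unusedSectionVars false

namespace Fermat.Agent.S52.T3.Fibre.KleinSubstT

open Fermat.Agent.S52.KleinFamily Fermat.Agent.S52.KleinForms

section Naturality

variable {R S : Type*} [CommRing R] [CommRing S] (φ : R →+* S)

theorem map_kH (u v : R) : φ (kH u v) = kH (φ u) (φ v) := by
  unfold kH
  simp only [map_add, map_sub, map_mul, map_pow, map_neg, map_ofNat]

theorem map_kT (u v : R) : φ (kT u v) = kT (φ u) (φ v) := by
  unfold kT
  simp only [map_add, map_sub, map_mul, map_pow, map_neg, map_ofNat]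

theorem map_kf (u v : R) : φ (kf u v) = kf (φ u) (φ v) := by
  unfold kf
  simp only [map_add, map_sub, map_mul, map_pow, map_neg, map_ofNat]

theorem map_kfu (u v : R) : φ (kfu u v) = kfu (φ u) (φ v) := by
  unfold kfu
  simp only [map_add, map_sub, map_mul, map_pow, map_neg, map_ofNat]

theorem map_kfv (u v : R) : φ (kfv u v) = kfv (φ u) (φ v) := by
  unfold kfv
  simp only [map_add, map_sub, map_mul, map_pow, map_neg, map_ofNat]

theorem map_Tf (h k t : R) : φ (Tf h k t) = Tf (φ h) (φ k) (φ t) := by
  unfold Tf tc0 tc1 tc2 tc3 tc4 tc5 tc6 tc7 tc8 tc9 tc10 tc11 tc12 tc13 tc14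
    tc15 tc16 tc17 tc18 tc19 tc20 tc21 tc22 tc23 tc24 tc25 tc26 tc27 tc28 tc29 tc30
  simp only [map_add, map_sub, map_mul, map_pow, map_neg, map_ofNat, map_one]

theorem map_Hf (h k t : R) : φ (Hf h k t) = Hf (φ h) (φ k) (φ t) := by
  unfold Hf hc0 hc1 hc2 hc3 hc4 hc5 hc6 hc7 hc8 hc9 hc10 hc11 hc12 hc13 hc14
    hc15 hc16 hc17 hc18 hc19 hc20
  simp only [map_add, map_sub, map_mul, map_pow, map_neg, map_ofNat, map_one]

theorem map_df (h k t : R) : φ (df h k t) = df (φ h) (φ k) (φ t) := by
  unfold df dc0 dc1 dc2 dc3 dc4 dc5 dc6 dc7 dc8 dc9 dc10 dc11 dc12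
  simp only [map_add, map_sub, map_mul, map_pow, map_neg, map_ofNat, map_one, map_zero]

end Naturality

section Squares

variable {D : Type*} [CommRing D]

/-- `kT(P + t X)² = Tf²`, from the `H`- and `f`-identities and the two syzygies. -/
theorem sq_eq (u v t : D) :
    kT (u - t * kfv u v) (v + t * kfu u v) ^ 2 = Tf (kH u v) (kT u v) t ^ 2 := by
  have hH := Fermat.Agent.S52.KleinSubstH.Hf_subst u v t
  have hf := Fermat.Agent.S52.KleinSubstF.df_subst u v t
  have h1 := klein_syzygy (u - t * kfv u v) (v + t * kfu u v)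
  have h2 := klein_syzygy u v
  have h3 := syzygy (kH u v) (kT u v) t
  rw [← hH, ← hf] at h1
  linear_combination h1 - h3 - (df (kH u v) (kT u v) t) ^ 5 * h2

end Squares

section Universal

open MvPolynomial

/-- the universal ring `ℤ[u, v, t]` -/
abbrev Uni := MvPolynomial (Fin 3) ℤ

/-- evaluation at `(1, 0, 0)` -/
noncomputable def ev100 : Uni →+* ℤ := MvPolynomial.eval ![1, 0, 0]

/-- The `T`-identity in the universal ring. -/
theorem Tf_subst_uni :
    Tf (kH (X 0 : Uni) (X 1)) (kT (X 0) (X 1)) (X 2)
      = kT (X 0 - X 2 * kfv (X 0) (X 1)) (X 1 + X 2 * kfu (X 0) (X 1)) := by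
  have hsq := sq_eq (X 0 : Uni) (X 1) (X 2)
  rcases sq_eq_sq_iff_eq_or_eq_neg.mp hsq with h | h
  · exact h.symm
  · exfalso
    have h' := congrArg ev100 h
    rw [map_neg, map_kT, map_Tf, map_sub, map_add, map_mul, map_mul, map_kfv, map_kfu, map_kH,
      map_kT] at h'
    have e0 : ev100 (X 0) = 1 := by simp [ev100]
    have e1 : ev100 (X 1) = 0 := by simp [ev100]
    have e2 : ev100 (X 2) = 0 := by simp [ev100]
    rw [e0, e1, e2, Tf_zero] at h'
    unfold kT at h'
    norm_num at h'

end Universal

section General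

open MvPolynomial

variable {R : Type*} [CommRing R]

/-- **The substitution identity for `T`** along the line `P₀ + t X₀`, in every commutative ring. -/
theorem Tf_subst (u v t : R) :
    Tf (kH u v) (kT u v) t = kT (u - t * kfv u v) (v + t * kfu u v) := by
  have h := congrArg (MvPolynomial.eval₂Hom (Int.castRingHom R) ![u, v, t]) Tf_subst_uni
  rw [map_Tf, map_kH, map_kT, map_kT, map_sub, map_add, map_mul, map_mul, map_kfv, map_kfu] at h
  simpa using h

end General

end Fermat.Agent.S52.T3.Fibre.KleinSubstT
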